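/-
P-DS / P-ES1 / ES1-A, package GROW (helper60): GENERIC form of `Fermat.Agent.H77.EsAGrow` for an
arbitrary modular model `X = (Γ, F, R, j)`: the holomorphic functions representing elements of
the function field `X.F` are `X.Γ`-invariant of moderate growth at all cusps
(`InvariantGrowthStatement X`, `RepRegularStatement X`).  The period `N` of `Γ₀(N)` is replaced
by the period `e` of `Model.IsModular.exists_period`.
-/
import Fermat.Agent.H23.ES1A.Basic
import Fermat.Agent.H77.EsAGrow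

set_option autoImplicit false

noncomputable section

open UpperHalfPlane Function Filter
open scoped MatrixGroups Manifold Topology Real

namespace Fermat.Agent.H60.ES1A

open Fermat.Agent.H23.ES1A (Model Rep RepRegularStatement InvariantGrowthStatement)

/-- If `S` is `Γ`-invariant and `γ T ^ e γ⁻¹ ∈ Γ` then `z ↦ S (γ z)` is invariant under
`z ↦ z + e`. -/
theorem grow_periodic_comp_smul (Γ : Subgroup SL(2, ℤ)) (e : ℕ) {S : ℍ → ℂ}
    (hinv : ∀ β ∈ Γ, ∀ z : ℍ, S (β • z) = S z) (γ : SL(2, ℤ))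
    (hmem : γ * ModularGroup.T ^ e * γ⁻¹ ∈ Γ)
    (z : ℍ) : S (γ • (ModularGroup.T ^ e • z)) = S (γ • z) := by
  have h := hinv _ hmem (γ • z)
  have e' : (γ * ModularGroup.T ^ e * γ⁻¹) • (γ • z) = γ • (ModularGroup.T ^ e • z) := by
    rw [← mul_smul, ← mul_smul, inv_mul_cancel_right]
  rw [← e']
  exact h

/-- **Growth of a quotient.**  If `h * S = R` with `R`, `S` of moderate growth at all cusps, `S`
holomorphic, `Γ`-invariant and nonzero, then `h` has moderate growth at all cusps. -/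
theorem grow_growth_of_mul_eq (Γ : Subgroup SL(2, ℤ)) (e : ℕ) (he : 0 < e)
    (hper : ∀ γ : SL(2, ℤ), γ * ModularGroup.T ^ e * γ⁻¹ ∈ Γ)
    {h R S : ℍ → ℂ} (hSd : MDiff S)
    (hSinv : ∀ β ∈ Γ, ∀ z : ℍ, S (β • z) = S z)
    (hSg : Fermat.Agent.H23.EsA.ModerateGrowth S) (hRg : Fermat.Agent.H23.EsA.ModerateGrowth R)
    (hS0 : S ≠ 0) (hmul : ∀ z : ℍ, h z * S z = R z) :
    Fermat.Agent.H94.EsA.HasModerateGrowth h := by
  have : NeZero e := ⟨he.ne'⟩
  intro γ
  obtain ⟨M₁, C₁, Y₁, h₁⟩ := hRg γ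
  obtain ⟨M₂, C₂, Y₂, h₂⟩ := hSg γ
  have hSγ0 : (fun z : ℍ => S (γ • z)) ≠ 0 := fun h0 =>
    hS0 (Fermat.Agent.H77.esg_eq_zero_of_comp_smul_eq_zero γ h0)
  obtain ⟨M', c, Y', hc, hlow⟩ := Fermat.Agent.H77.esg_lower_bound e (fun z : ℍ => S (γ • z))
    (Fermat.Agent.H77.esg_mdiff_comp_smul hSd γ)
    (fun z => grow_periodic_comp_smul Γ e hSinv γ (hper γ) z) M₂ C₂ Y₂ h₂ hSγ0
  refine ⟨M₁ + M', |C₁| / c, max Y₁ Y', div_nonneg (abs_nonneg _) hc.le, fun z hz => ?_⟩
  have hz1 : Y₁ ≤ z.im := le_trans (le_max_left _ _) hz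
  have hz2 : Y' ≤ z.im := le_trans (le_max_right _ _) hz
  have hR := h₁ z hz1
  have hS := hlow z hz2
  have hm : ‖h (γ • z)‖ * ‖S (γ • z)‖ = ‖R (γ • z)‖ := by
    rw [← norm_mul, hmul]
  have hE' : 0 < Real.exp (-(2 * π * M' * z.im)) := Real.exp_pos _
  have hE₁ : 0 < Real.exp (2 * π * M₁ * z.im) := Real.exp_pos _
  have hcE : 0 < c * Real.exp (-(2 * π * M' * z.im)) := mul_pos hc hE'
  have hkey : ‖h (γ • z)‖ * (c * Real.exp (-(2 * π * M' * z.im)))
      ≤ |C₁| * Real.exp (2 * π * M₁ * z.im) :=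
    calc ‖h (γ • z)‖ * (c * Real.exp (-(2 * π * M' * z.im)))
        ≤ ‖h (γ • z)‖ * ‖S (γ • z)‖ := mul_le_mul_of_nonneg_left hS (norm_nonneg _)
      _ = ‖R (γ • z)‖ := hm
      _ ≤ C₁ * Real.exp (2 * π * M₁ * z.im) := hR
      _ ≤ |C₁| * Real.exp (2 * π * M₁ * z.im) :=
          mul_le_mul_of_nonneg_right (le_abs_self _) hE₁.le
  have hsplit : Real.exp (2 * π * ((M₁ + M' : ℕ) : ℝ) * z.im)
      = Real.exp (2 * π * M₁ * z.im) / Real.exp (-(2 * π * M' * z.im)) := by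
    rw [← Real.exp_sub]
    congr 1
    push_cast
    ring
  rw [hsplit, div_mul_div_comm, le_div_iff₀ hcE]
  exact hkey

/-- Common core of `InvariantGrowthStatement` and `RepRegularStatement`. -/
theorem grow_invariant_growth (X : Model) (hX : X.IsModular)
    (x : ↥X.F) (h : ℍ → ℂ)
    (hx : Fermat.Agent.H44.LaurentRel h (x : LaurentSeries ℂ)) :
    (∀ γ ∈ X.Γ, ∀ z : ℍ, h (γ • z) = h z) ∧
      Fermat.Agent.H94.EsA.HasModerateGrowth h := by
  obtain ⟨e, he, hper⟩ := hX.exists_period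
  obtain ⟨r, s, hr, hs, hs0, hxs⟩ := hX.frac x
  obtain ⟨R, hR, hRd, hRinv, hRg⟩ := hX.rep r hr
  obtain ⟨S, hS, hSd, hSinv, hSg⟩ := hX.rep s hs
  have hhd : MDiff h := hx.mdifferentiable
  have hmul : h * S = R := by
    have h1 : Fermat.Agent.H44.LaurentRel (h * S)
        ((x : LaurentSeries ℂ) * (s : LaurentSeries ℂ)) := hx.mul hS
    have h2 : Fermat.Agent.H44.LaurentRel R
        ((x : LaurentSeries ℂ) * (s : LaurentSeries ℂ)) := by
      have e' : ((r : ↥X.F) : LaurentSeries ℂ)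
          = (x : LaurentSeries ℂ) * (s : LaurentSeries ℂ) := by
        rw [← hxs]; rfl
      rw [← e']
      exact hR
    exact h1.unique_left h2
  have hmul' : ∀ z : ℍ, h z * S z = R z := fun z => congrFun hmul z
  have hS0 : S ≠ 0 := by
    intro hS0
    have hS' : Fermat.Agent.H44.LaurentRel (0 : ℍ → ℂ) (s : LaurentSeries ℂ) := by
      rw [← hS0]; exact hS
    have e' := hS'.unique_right Fermat.Agent.H44.laurentRel_zero
    exact hs0 (Subtype.ext e')
  refine ⟨fun γ hγ z => ?_, grow_growth_of_mul_eq X.Γ e he hper hSd hSinv hSg hRg hS0 hmul'⟩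
  have hdiff : (fun w : ℍ => h (γ • w) - h w) = 0 := by
    refine Fermat.Agent.H77.esg_eq_zero_of_mul_eq_zero
      ((Fermat.Agent.H77.esg_mdiff_comp_smul hhd γ).sub hhd) hSd (fun w => ?_) hS0
    have e1 : h (γ • w) * S w = R w := by
      rw [← hSinv γ hγ w, hmul' (γ • w), hRinv γ hγ w]
    rw [sub_mul, e1, hmul' w, sub_self]
  have := congrFun hdiff z
  exact sub_eq_zero.mp this

/-- **A-GROW** (`Fermat.Agent.H23.ES1A.InvariantGrowthStatement`) for a modular model. -/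
theorem invariantGrowth (X : Model) (hX : X.IsModular) : InvariantGrowthStatement X := by
  intro x h hx
  obtain ⟨h1, h2⟩ := grow_invariant_growth X hX x h hx
  exact ⟨fun γ z => h1 (γ : SL(2, ℤ)) γ.2 z, h2⟩

/-- **[REP-REG]** (`Fermat.Agent.H23.ES1A.RepRegularStatement`) for a modular model. -/
theorem repRegular (X : Model) (hX : X.IsModular) : RepRegularStatement X := by
  intro f h hf
  obtain ⟨h1, h2⟩ := grow_invariant_growth X hX f h hf
  refine ⟨h1, fun γ => ?_⟩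
  obtain ⟨M, C, Y, -, hb⟩ := h2 γ
  exact ⟨M, C, Y, hb⟩

/-- **A-HOL** (`Fermat.Agent.H23.ES1A.HolRepStatement`) for a modular model: every class modulo
`m`-th powers has a holomorphic representative. -/
theorem holRep (X : Model) (hX : X.IsModular) : Fermat.Agent.H23.ES1A.HolRepStatement X := by
  intro m hm f _
  obtain ⟨r, s, hr, hs, hs0, hfs⟩ := hX.frac f
  refine ⟨s, hs0, ?_⟩
  obtain ⟨k, rfl⟩ : ∃ k, m = k + 1 := ⟨m - 1, by omega⟩
  have hmem : f * s ^ (k + 1) ∈ X.R := by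
    have e : f * s ^ (k + 1) = r * s ^ k := by
      rw [← hfs, pow_succ]; ring
    rw [e]
    exact mul_mem hr (pow_mem hs k)
  obtain ⟨H, hH, -⟩ := hX.rep _ hmem
  exact ⟨H, hH⟩

/-- **A-FRAC** (`Fermat.Agent.H23.ES1A.FracHolStatement`) for a modular model: every element of
the function field is a quotient of two holomorphic elements. -/
theorem fracHol (X : Model) (hX : X.IsModular) : Fermat.Agent.H23.ES1A.FracHolStatement X := by
  intro f
  obtain ⟨r, s, hr, hs, hs0, hfs⟩ := hX.frac f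
  obtain ⟨R, hR, -⟩ := hX.rep r hr
  obtain ⟨S, hS, -⟩ := hX.rep s hs
  exact ⟨r, s, hs0, ⟨R, hR⟩, ⟨S, hS⟩, hfs⟩

end Fermat.Agent.H60.ES1A

end
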